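import Mathlib
import Fermat.Agent.S56.Tan.Cocycle
import Fermat.Agent.S56.Tan.Rep
import Fermat.Agent.S56.Tan.Count
import Fermat.Agent.S56.GW.Seams
import Fermat.Agent.S56.PS.Top
import Fermat.Agent.S56.Grp.Residual

/-!
# S56, node [ASM]: vocabulary and seams of the assembly (prefix `s56a_`)

Matrix-level vocabulary (as `S56/Tan/Cocycle.lean`): `k` a finite field of characteristic `p`,
`rb : S53.FramedResidual k` the framed residual representation, a *cocycle* is a function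
`c : GQ → Matrix (Fin 2) (Fin 2) k` with `c (σ τ) = c σ + rb σ * c τ * rb σ⁻¹`.

* `s56a_cobOn rb D`, `s56a_inv rb D`, `s56a_Z rb` : coboundaries on a subgroup `D`, the invariants
  `H⁰(D, ad⁰)`, the finite-level trace-zero cocycles (all `k`-subspaces).
* `s56a_LocShape` : the common shape of the three local nodes at the primes of `Smin`
  (`s56a_LocQ_stmt`, `s56a_LocPOrd_stmt`, `s56a_LocPFlat_stmt`).
* `s56a_ad p rb` : `ad⁰ rb` as a `Rep (ZMod p) GQ` (= `s56t_ad0 p rb.toMonoidHom`).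
* `s56a_LocTW_stmt` : the local count at the Taylor–Wiles primes (general, GW vocabulary).
* `s56a_Cheb_stmt` : the Taylor–Wiles primes kill the dual Selmer group (GW vocabulary).
* `s56a_HypEquiv_stmt`, `s56a_M_stmt` : the cell [ASM-M].
* `s56a_Tan_stmt`, `s56a_EqInv_stmt` : seams of [TAN] (closed in `S56/Tan/Main.lean`).
-/

set_option autoImplicit false

open Polynomial IsLocalRing CategoryTheory Module groupCohomology ExtCitation
open Fermat.Agent.S53

namespace Fermat.Agent.S56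

noncomputable section

/-! ### matrix-level vocabulary -/

section matrix

variable {k : Type} [Field k]

/-- the cochains `c : GQ → M₂(k)` that are, on the subgroup `D`, the coboundary of a trace-zero
matrix: `c σ = rb σ * m * rb σ⁻¹ - m` for `σ ∈ D`. -/
def s56a_cobOn (rb : FramedResidual k) (D : Subgroup GQ) :
    Submodule k (GQ → Matrix (Fin 2) (Fin 2) k) where
  carrier := {c | ∃ m : Matrix (Fin 2) (Fin 2) k, Matrix.trace m = 0 ∧
    ∀ σ ∈ D, c σ = rb σ * m * rb σ⁻¹ - m}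
  add_mem' := by
    rintro c c' ⟨m, hm, h⟩ ⟨m', hm', h'⟩
    refine ⟨m + m', by rw [Matrix.trace_add, hm, hm', add_zero], fun σ hσ => ?_⟩
    rw [Pi.add_apply, h σ hσ, h' σ hσ, Matrix.mul_add, Matrix.add_mul]
    abel
  zero_mem' := ⟨0, Matrix.trace_zero _ _, fun σ _ => by simp⟩
  smul_mem' := by
    rintro a c ⟨m, hm, h⟩
    refine ⟨a • m, by rw [Matrix.trace_smul, hm, smul_zero], fun σ hσ => ?_⟩
    rw [Pi.smul_apply, h σ hσ, Matrix.mul_smul, Matrix.smul_mul, smul_sub]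

theorem s56a_mem_cobOn (rb : FramedResidual k) (D : Subgroup GQ)
    (c : GQ → Matrix (Fin 2) (Fin 2) k) :
    c ∈ s56a_cobOn rb D ↔ ∃ m : Matrix (Fin 2) (Fin 2) k, Matrix.trace m = 0 ∧
      ∀ σ ∈ D, c σ = rb σ * m * rb σ⁻¹ - m := Iff.rfl

/-- `H⁰(D, ad⁰ rb)`: the trace-zero matrices commuting with `rb σ` for all `σ ∈ D`. -/
def s56a_inv (rb : FramedResidual k) (D : Subgroup GQ) :
    Submodule k (Matrix (Fin 2) (Fin 2) k) where
  carrier := {m | Matrix.trace m = 0 ∧ ∀ σ ∈ D, rb σ * m = m * rb σ}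
  add_mem' := by
    rintro m m' ⟨hm, h⟩ ⟨hm', h'⟩
    exact ⟨by rw [Matrix.trace_add, hm, hm', add_zero], fun σ hσ => by
      rw [Matrix.mul_add, Matrix.add_mul, h σ hσ, h' σ hσ]⟩
  zero_mem' := ⟨Matrix.trace_zero _ _, fun σ _ => by simp⟩
  smul_mem' := by
    rintro a m ⟨hm, h⟩
    exact ⟨by rw [Matrix.trace_smul, hm, smul_zero], fun σ hσ => by
      rw [Matrix.mul_smul, Matrix.smul_mul, h σ hσ]⟩

theorem s56a_mem_inv (rb : FramedResidual k) (D : Subgroup GQ) (m : Matrix (Fin 2) (Fin 2) k) :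
    m ∈ s56a_inv rb D ↔ Matrix.trace m = 0 ∧ ∀ σ ∈ D, rb σ * m = m * rb σ := Iff.rfl

/-- the finite-level, trace-zero cocycles of `ad rb`. -/
def s56a_Z (rb : FramedResidual k) : Submodule k (GQ → Matrix (Fin 2) (Fin 2) k) where
  carrier := {c | (∀ σ, Matrix.trace (c σ) = 0) ∧
    (∀ σ τ, c (σ * τ) = c σ + rb σ * c τ * rb σ⁻¹) ∧
    ∃ L : IntermediateField ℚ (AlgebraicClosure ℚ), FiniteDimensional ℚ L ∧
      ∀ σ s : GQ, (∀ x ∈ L, s x = x) → c (σ * s) = c σ}
  add_mem' := by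
    rintro c c' ⟨h1, h2, L, hL, h3⟩ ⟨h1', h2', L', hL', h3'⟩
    refine ⟨fun σ => by rw [Pi.add_apply, Matrix.trace_add, h1, h1', add_zero], fun σ τ => ?_,
      L ⊔ L', IntermediateField.finiteDimensional_sup L L', fun σ s hs => ?_⟩
    · simp only [Pi.add_apply]
      rw [h2, h2', Matrix.mul_add, Matrix.add_mul]
      abel
    · simp only [Pi.add_apply]
      rw [h3 σ s (fun x hx => hs x ((le_sup_left : L ≤ L ⊔ L') hx)),
        h3' σ s (fun x hx => hs x ((le_sup_right : L' ≤ L ⊔ L') hx))]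
  zero_mem' := ⟨fun σ => Matrix.trace_zero _ _, fun σ τ => by simp,
    ⊥, inferInstance, fun σ s _ => rfl⟩
  smul_mem' := by
    rintro a c ⟨h1, h2, L, hL, h3⟩
    refine ⟨fun σ => by rw [Pi.smul_apply, Matrix.trace_smul, h1, smul_zero], fun σ τ => ?_,
      L, hL, fun σ s hs => ?_⟩
    · simp only [Pi.smul_apply]
      rw [h2, smul_add, Matrix.mul_smul, Matrix.smul_mul]
    · simp only [Pi.smul_apply]
      rw [h3 σ s hs]

theorem s56a_mem_Z (rb : FramedResidual k) (c : GQ → Matrix (Fin 2) (Fin 2) k) :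
    c ∈ s56a_Z rb ↔ (∀ σ, Matrix.trace (c σ) = 0) ∧
      (∀ σ τ, c (σ * τ) = c σ + rb σ * c τ * rb σ⁻¹) ∧
      ∃ L : IntermediateField ℚ (AlgebraicClosure ℚ), FiniteDimensional ℚ L ∧
        ∀ σ s : GQ, (∀ x ∈ L, s x = x) → c (σ * s) = c σ := Iff.rfl

/-- the cochains vanishing on every inertia group above every prime outside `Σ`. -/
def s56a_unrOut (Sg : Finset ℕ) : Submodule k (GQ → Matrix (Fin 2) (Fin 2) k) where
  carrier := {c | ∀ ℓ : ℕ, ℓ.Prime → ℓ ∉ Sg → ∀ A : ValuationSubring (AlgebraicClosure ℚ),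
    A.LiesOverPrime ℓ → ∀ σ ∈ A.inertiaSubgroupIn ℚ, c σ = 0}
  add_mem' := by
    intro c c' h h' ℓ hℓ hℓS A hA σ hσ
    rw [Pi.add_apply, h ℓ hℓ hℓS A hA σ hσ, h' ℓ hℓ hℓS A hA σ hσ, add_zero]
  zero_mem' := fun _ _ _ _ _ _ _ => rfl
  smul_mem' := by
    intro a c h ℓ hℓ hℓS A hA σ hσ
    rw [Pi.smul_apply, h ℓ hℓ hℓS A hA σ hσ, smul_zero]

/-- **the common shape of the local nodes at the primes of `Smin`**: a `k`-subspace `C` of
cochains containing the cocycle of every framed lift of `rb` to `k[ε]` with the property `P`, and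
of dimension at most `h⁰(D, ad⁰) + e` modulo the coboundaries on `D`. -/
def s56a_LocShape (rb : FramedResidual k) (D : Subgroup GQ)
    (P : FramedRep (DualNumber k) → Prop) (e : ℕ) : Prop :=
  ∃ C : Submodule k (GQ → Matrix (Fin 2) (Fin 2) k),
    (∀ r : FramedRep (DualNumber k), (∀ σ, s56t_bar r σ = rb σ) → P r → s56t_coc r ∈ C) ∧
    FiniteDimensional k (↥C ⧸ (s56a_cobOn rb D).comap C.subtype) ∧
    finrank k (↥C ⧸ (s56a_cobOn rb D).comap C.subtype) ≤ finrank k (s56a_inv rb D) + e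

/-- the standing hypotheses of S56 on a residual representation (frozen shapes). -/
structure s56a_Hyp (p : ℕ) (ρ : ResidualGaloisRep k) : Prop where
  habs : ρ.IsAbsolutelyIrreducible
  hdet : (GaloisRepAdic.ofResidualGaloisRep ρ).DetIsCyclotomic p
  hsplit : ∀ σ : GQ, ∃ α β : k, LinearMap.charpoly (ρ.ρ σ) = (X - C α) * (X - C β)
  hTW : s56g_TWHyp ρ

end matrix

/-! ### the three local seams at the primes of `Smin` -/

/-- **[LOC-q]**: `q ≠ p`, `rb` ramified at `q`: the deformations with unipotent inertia at `q`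
(and cyclotomic determinant) have classes in a subspace of dimension `≤ h⁰(D_q, ad⁰)` modulo
coboundaries on `D_q` (`D_q` the decomposition group of `padicPlace q`). -/
def s56a_LocQ_stmt : Prop :=
  ∀ (p : ℕ) [Fact p.Prime], p ≠ 2 → ∀ (k : Type) [Field k] [Finite k] [Algebra (ZMod p) k]
    (rb : FramedResidual k) (q : ℕ) [Fact q.Prime], q ≠ p →
    ¬ rb.toResidualGaloisRep.IsUnramifiedAt q →
    s56a_LocShape rb ((padicPlace q).decompositionSubgroup ℚ)
      (fun r => r.toGaloisRepAdic.DetIsCyclotomic p ∧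
        r.toGaloisRepAdic.IsUnipotentOnInertiaAt q) 0

/-- **[LOC-p-ORD]**: the strict-ordinary deformations (with cyclotomic determinant) have classes
in a subspace of dimension `≤ h⁰(D_p, ad⁰) + 1` modulo coboundaries on `D_p`. -/
def s56a_LocPOrd_stmt : Prop :=
  ∀ (p : ℕ) [Fact p.Prime], p ≠ 2 → ∀ (k : Type) [Field k] [Finite k] [Algebra (ZMod p) k]
    (rb : FramedResidual k),
    s56a_LocShape rb ((padicPlace p).decompositionSubgroup ℚ)
      (fun r => r.toGaloisRepAdic.DetIsCyclotomic p ∧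
        r.toGaloisRepAdic.IsStrictOrdinaryAt p) 1

/-- **[LOC-p-FLAT]**: the flat deformations (with cyclotomic determinant) have classes in a
subspace of dimension `≤ h⁰(D_p, ad⁰) + 1` modulo coboundaries on `D_p` (when all eigenvalues of
`rb` lie in `k`: hypothesis `hsplit`, added on request of the owner, finding #3387). -/
def s56a_LocPFlat_stmt : Prop :=
  ∀ (p : ℕ) [Fact p.Prime], p ≠ 2 → ∀ (k : Type) [Field k] [Finite k] [Algebra (ZMod p) k]
    (rb : FramedResidual k),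
    (∀ σ : GQ, ∃ α β : k,
      LinearMap.charpoly (rb.toResidualGaloisRep.ρ σ) = (X - C α) * (X - C β)) →
    s56a_LocShape rb ((padicPlace p).decompositionSubgroup ℚ)
      (fun r => r.toGaloisRepAdic.DetIsCyclotomic p ∧ r.toGaloisRepAdic.IsFlatAt p) 1

/-! ### `ad⁰ rb` as a `Rep (ZMod p) GQ` -/

/-- **`ad⁰ rb` as a `Rep (ZMod p) GQ`** (the module `M` of `S56/GW/Seams.lean`): helper9's
`s56t_ad0` (`S56/Tan/Rep.lean`) for `B := rb.toMonoidHom`. -/
abbrev s56a_ad (p : ℕ) [Fact p.Prime] {k : Type} [Field k] [Algebra (ZMod p) k]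
    (rb : FramedResidual k) : Rep.{0} (ZMod p) GQ :=
  s56t_ad0 p rb.toMonoidHom

/-! ### the seam at the Taylor–Wiles primes -/

/-- **[LOC-TW]** (general; no `ad⁰`, no eigenvalues): for a finite smooth `M` unramified at `q`,
`q ≠ p`, `p ∣ q - 1`: `h¹(G_q, M) ≤ 2 h⁰(G_q, M)`. -/
def s56a_LocTW_stmt : Prop :=
  ∀ (p : ℕ) [Fact p.Prime] (M : Rep.{0} (ZMod p) GQ) [FiniteDimensional (ZMod p) M],
    s56gw_Smooth M → ∀ q : Nat.Primes, (q : ℕ) ≠ p → p ∣ (q : ℕ) - 1 →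
    (∀ A : ValuationSubring (AlgebraicClosure ℚ), A.LiesOverPrime (q : ℕ) →
      ∀ g ∈ A.inertiaSubgroupIn ℚ, M.ρ g = 1) →
    FiniteDimensional (ZMod p) (s56gw_cH1 M q) ∧
    finrank (ZMod p) (s56gw_cH1 M q) ≤ 2 * finrank (ZMod p) (s56gw_res M q).ρ.invariants

/-! ### the Chebotarev seam -/

/-- **[CHEB]**: for every finite-dimensional space `D` of continuous classes of
`M' = (ad⁰ rb)^*(1)` unramified outside `Sm`, every `n` and every finite set `T0` of excluded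
primes there are `finrank D` Taylor–Wiles primes of level `n` outside `T0` such that no nonzero
class of `D` is locally trivial at all of them. -/
def s56a_Cheb_stmt : Prop :=
  ∀ (p : ℕ) [Fact p.Prime], p ≠ 2 → ∀ (k : Type) [Field k] [Finite k] [Algebra (ZMod p) k]
    (rb : FramedResidual k), s56a_Hyp p rb.toResidualGaloisRep →
    ∀ Sm : Finset Nat.Primes, pPrime p ∈ Sm →
    (∀ q : Nat.Primes, q ∉ Sm → rb.toResidualGaloisRep.IsUnramifiedAt (q : ℕ)) →
    ∀ D : Submodule (ZMod p) (H1 (s56gw_dual (s56a_ad p rb))),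
      D ≤ continuousH1S Sm (s56gw_dual (s56a_ad p rb)) → FiniteDimensional (ZMod p) D →
    ∀ (n : ℕ) (T0 : Finset ℕ), ∃ qv : Fin (finrank (ZMod p) D) → Nat.Primes,
      Function.Injective qv ∧
      (∀ i, (qv i : ℕ) ∉ T0 ∧ p ^ (n + 1) ∣ (qv i : ℕ) - 1) ∧
      (∀ i, ∀ P : ValuationSubring (AlgebraicClosure ℚ), P.LiesOverPrime (qv i : ℕ) →
        ∀ φ : GQ, P.IsFrobeniusAt φ (qv i : ℕ) → ∃ α β : k, α ≠ β ∧
          LinearMap.charpoly (rb.toResidualGaloisRep.ρ φ) = (X - C α) * (X - C β)) ∧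
      ∀ y ∈ D, (∀ i, s56gw_loc (s56gw_dual (s56a_ad p rb)) (qv i) y = 0) → y = 0


/-! ### the module `ad⁰ rb` -/

/-- **[TAN] (EQ)**: the frozen properties are invariant under equivalence. -/
def s56a_EqInv_stmt : Prop :=
  ∀ (A : Type) [CommRing A] [IsLocalRing A] (ρ ρ' : GaloisRepAdic A), ρ.IsEquiv ρ' →
    (∀ p : ℕ, ρ.DetIsCyclotomic p → ρ'.DetIsCyclotomic p) ∧
    (∀ p : ℕ, ρ.IsStrictOrdinaryAt p → ρ'.IsStrictOrdinaryAt p) ∧
    (∀ p : ℕ, ρ.IsFlatAt p → ρ'.IsFlatAt p) ∧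
    (∀ q : ℕ, ρ.IsUnramifiedAt q → ρ'.IsUnramifiedAt q) ∧
    (∀ q : ℕ, ρ.IsUnipotentOnInertiaAt q → ρ'.IsUnipotentOnInertiaAt q)

/-- **[ASM-M] (1)**: the standing hypotheses pass from `ρbar` to an equivalent framed residual
representation. -/
def s56a_HypEquiv_stmt : Prop :=
  ∀ (p : ℕ) (k : Type) [Field k] (ρbar : ResidualGaloisRep k) (rb : FramedResidual k),
    ρbar.IsEquiv rb.toResidualGaloisRep → s56a_Hyp p ρbar →
    s56a_Hyp p rb.toResidualGaloisRep ∧
    (∀ q : ℕ, ρbar.IsUnramifiedAt q ↔ rb.toResidualGaloisRep.IsUnramifiedAt q) ∧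
    ∀ σ : GQ, LinearMap.charpoly (ρbar.ρ σ) = LinearMap.charpoly (rb.toResidualGaloisRep.ρ σ)

/-- **[ASM-M] (2)**: `M = ad⁰ rb` satisfies the hypotheses of `s56gw_Main_stmt`. -/
def s56a_M_stmt : Prop :=
  ∀ (p : ℕ) [Fact p.Prime], p ≠ 2 → ∀ (k : Type) [Field k] [Finite k] [Algebra (ZMod p) k]
    (rb : FramedResidual k), s56a_Hyp p rb.toResidualGaloisRep →
    FiniteDimensional (ZMod p) (s56a_ad p rb) ∧
    s56gw_Smooth (s56a_ad p rb) ∧
    s56gw_NoInv (s56a_ad p rb) ∧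
    s56gw_NoInv (s56gw_dual (s56a_ad p rb)) ∧
    ∀ Sm : Finset Nat.Primes,
      (∀ q : Nat.Primes, q ∉ Sm → rb.toResidualGaloisRep.IsUnramifiedAt (q : ℕ)) →
      s56gw_UnrOut Sm (s56a_ad p rb)

/-! ### the counting adapter of [TAN] -/

section tan

variable {𝒪 : Type} [CommRing 𝒪] [IsDomain 𝒪] [IsDiscreteValuationRing 𝒪]
  [IsAdicComplete (maximalIdeal 𝒪) 𝒪] [Finite (ResidueField 𝒪)]

attribute [local instance] S53.dualNumberAlgebra

/-- **[TAN]** (counting adapter): if the cocycle of every framed lift of `rb` of type `𝒟` lies in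
a `k`-subspace `Sel` of dimension `≤ n` modulo global coboundaries, `𝒟` is invariant under
equivalence and holds for the specialisations along surjective `φ`, then any family of
`𝒪`-algebra maps `DQ.R → k[ε]` with pairwise inequivalent specialisations has `≤ |k| ^ n`
members. -/
def s56a_Tan_stmt : Prop :=
  ∀ (𝒪 : Type) [CommRing 𝒪] [IsDomain 𝒪] [IsDiscreteValuationRing 𝒪]
    [IsAdicComplete (maximalIdeal 𝒪) 𝒪] [Finite (ResidueField 𝒪)]
    (ρbar : ResidualGaloisRep (ResidueField 𝒪)) (rb : FramedResidual (ResidueField 𝒪)),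
    ρbar.IsEquiv rb.toResidualGaloisRep →
    ∀ (𝒟 : ∀ ⦃A : Type⦄ [CommRing A] [IsLocalRing A] [Algebra 𝒪 A], GaloisRepAdic A → Prop)
      (DQ : GaloisRep.DeformationRingData 𝒪 ρbar 𝒟),
    (∀ ρ ρ' : GaloisRepAdic (DualNumber (ResidueField 𝒪)), ρ.IsEquiv ρ' → 𝒟 ρ → 𝒟 ρ') →
    (∀ φ : DQ.R →ₐ[𝒪] DualNumber (ResidueField 𝒪), Function.Surjective φ →
      𝒟 (s56ps_spec DQ φ)) →
    ∀ (Sel : Submodule (ResidueField 𝒪) (GQ → Matrix (Fin 2) (Fin 2) (ResidueField 𝒪))) (n : ℕ),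
    (∀ r : FramedRep (DualNumber (ResidueField 𝒪)), (∀ σ, s56t_bar r σ = rb σ) →
      𝒟 r.toGaloisRepAdic → s56t_coc r ∈ Sel) →
    FiniteDimensional (ResidueField 𝒪) (↥Sel ⧸ (s56a_cobOn rb ⊤).comap Sel.subtype) →
    finrank (ResidueField 𝒪) (↥Sel ⧸ (s56a_cobOn rb ⊤).comap Sel.subtype) ≤ n →
    ∀ F : Finset (DQ.R →ₐ[𝒪] DualNumber (ResidueField 𝒪)),
      (∀ φ ∈ F, ∀ φ' ∈ F, (s56ps_spec DQ φ).IsEquiv (s56ps_spec DQ φ') → φ = φ') →
      F.card ≤ Nat.card (ResidueField 𝒪) ^ n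

end tan

end

end Fermat.Agent.S56
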