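import Mathlib
import Fermat.Agent.S56.Asm.Seams
import Fermat.Agent.S56.Tan.Spec

/-!
# S56, node [ASM]: the final count (prefix `s56a_`)

* `s56a_Cls_stmt` : the seam of the cell [ASM-CLS] (local conditions `L q C` in the vocabulary of
  `S56/GW/Seams.lean` attached to subspaces `C` of cochains, their dimensions, the `h⁰` terms).
* `s56a_core` : from all the seams, for a framed residual representation `rb` over a finite field
  `k` and a local property `Pp` at `p` with the bound of shape `s56a_LocShape … 1`: the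
  Taylor–Wiles primes and a finite `ZMod p`-subspace `W ⊆ H¹(G_ℚ, ad⁰ rb)` with `#W ≤ |k| ^ r`
  containing the class of every framed deformation of the enlarged type.
-/

set_option autoImplicit false
set_option linter.unusedSectionVars false
set_option linter.style.haveILetI false

open Polynomial IsLocalRing CategoryTheory Module groupCohomology ExtCitation
open Fermat.Agent.S53

namespace Fermat.Agent.S56

noncomputable section

/-- **[ASM-CLS]**: the local conditions attached to subspaces of cochains, in the vocabulary of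
`S56/GW/Seams.lean`, with their dimensions, and the `h⁰` terms of the count. -/
def s56a_Cls_stmt : Prop :=
  ∀ (p : ℕ) [Fact p.Prime] (k : Type) [Field k] [Finite k] [Algebra (ZMod p) k]
    (rb : FramedResidual k),
    ∃ L : ∀ q : Nat.Primes, Submodule k (GQ → Matrix (Fin 2) (Fin 2) k) →
        Submodule (ZMod p) (H1 (s56gw_res (s56a_ad p rb) q)),
      (∀ (q : Nat.Primes) (C : Submodule k (GQ → Matrix (Fin 2) (Fin 2) k))
        (c : GQ → Matrix (Fin 2) (Fin 2) k) (hc : s56t_IsCoc rb.toMonoidHom c),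
        c ∈ C → c ∈ s56a_Z rb → s56gw_loc (s56a_ad p rb) q (s56t_cls p c hc) ∈ L q C) ∧
      (∀ (q : Nat.Primes) (C : Submodule k (GQ → Matrix (Fin 2) (Fin 2) k)),
        L q C ≤ s56gw_cH1 (s56a_ad p rb) q) ∧
      (∀ (q : Nat.Primes) (C : Submodule k (GQ → Matrix (Fin 2) (Fin 2) k)),
        FiniteDimensional k (↥C ⧸
          (s56a_cobOn rb ((primeLocalPlace q).decompositionSubgroup ℚ)).comap C.subtype) →
        FiniteDimensional (ZMod p) (L q C) ∧
        finrank (ZMod p) (L q C) ≤ finrank (ZMod p) k * finrank k (↥C ⧸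
          (s56a_cobOn rb ((primeLocalPlace q).decompositionSubgroup ℚ)).comap C.subtype)) ∧
      (∀ q : Nat.Primes,
        finrank (ZMod p) k * finrank k (s56a_inv rb ((primeLocalPlace q).decompositionSubgroup ℚ))
          ≤ finrank (ZMod p) (s56gw_res (s56a_ad p rb) q).ρ.invariants) ∧
      (∀ (q : Nat.Primes) (φ : GQ), φ ∈ (primeLocalPlace q).decompositionSubgroup ℚ →
        (∃ α β : k, α ≠ β ∧
          LinearMap.charpoly (rb.toResidualGaloisRep.ρ φ) = (X - C α) * (X - C β)) →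
        finrank (ZMod p) (s56gw_res (s56a_ad p rb) q).ρ.invariants ≤ finrank (ZMod p) k) ∧
      ((2 : k) ≠ 0 → (rb complexConjugation).det = -1 →
        finrank (ZMod p) k ≤ finrank (ZMod p) (s56gw_resInf (s56a_ad p rb)).ρ.invariants) ∧
      (p ≠ 2 → s56a_Hyp p rb.toResidualGaloisRep → (rb complexConjugation).det = -1) ∧
      (∀ q : Nat.Primes, (primeLocalPlace q).LiesOverPrime (q : ℕ) ∧
        ∃ φ ∈ (primeLocalPlace q).decompositionSubgroup ℚ,
          (primeLocalPlace q).IsFrobeniusAt φ (q : ℕ))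

/-- the arithmetic of the count. -/
theorem s56a_arith (A a b c x y z d r : ℕ) (h : A + a + b + c ≤ x + y + z) (hz : z = 0)
    (hx : x ≤ a + d) (hb : d ≤ b) (hy : y ≤ c + r * d) : A ≤ r * d := by
  subst hz
  linarith


section core

variable (p : ℕ) [Fact p.Prime] {k : Type} [Field k] [Finite k] [Algebra (ZMod p) k]

/-- **the core of the assembly.** -/
theorem s56a_core (hGW : s56gw_Main_stmt) (hCls : s56a_Cls_stmt) (hQ : s56a_LocQ_stmt)
    (hTWl : s56a_LocTW_stmt) (hCheb : s56a_Cheb_stmt) (hM : s56a_M_stmt)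
    (hp2 : p ≠ 2) (rb : FramedResidual k) (hyp : s56a_Hyp p rb.toResidualGaloisRep)
    (Pp : FramedRep (DualNumber k) → Prop)
    (hPp : s56a_LocShape rb ((padicPlace p).decompositionSubgroup ℚ)
      (fun r => r.toGaloisRepAdic.DetIsCyclotomic p ∧ Pp r) 1)
    (S Smin : Finset ℕ) (hpSmin : p ∈ Smin) (hSmin : Smin ⊆ S)
    (hmin : ∀ q : ℕ, q.Prime → q ≠ p →
      (q ∈ Smin ↔ ¬ rb.toResidualGaloisRep.IsUnramifiedAt q)) :
    ∃ r : ℕ, ∀ n : ℕ, ∃ qv : Fin r → ℕ, Function.Injective qv ∧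
      (∀ i, (qv i).Prime ∧ qv i ∉ S ∧ p ^ (n + 1) ∣ qv i - 1) ∧
      (∀ i, ∀ P : ValuationSubring (AlgebraicClosure ℚ), P.LiesOverPrime (qv i) →
        ∀ φ : GQ, P.IsFrobeniusAt φ (qv i) → ∃ α β : k, α ≠ β ∧
          LinearMap.charpoly (rb.toResidualGaloisRep.ρ φ) = (X - C α) * (X - C β)) ∧
      ∃ W : Submodule (ZMod p) (H1 (s56a_ad p rb)), Finite W ∧
        Nat.card W ≤ Nat.card k ^ r ∧
        ∀ (r' : FramedRep (DualNumber k)) (hc : s56t_IsCoc rb.toMonoidHom (s56t_coc r')),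
          (∀ σ, s56t_bar r' σ = rb σ) → r'.toGaloisRepAdic.DetIsCyclotomic p → Pp r' →
          (∀ q : ℕ, q.Prime → q ∉ Smin ∪ Finset.univ.image qv →
            r'.toGaloisRepAdic.IsUnramifiedAt q) →
          (∀ q ∈ Smin, q.Prime → q ≠ p → r'.toGaloisRepAdic.IsUnipotentOnInertiaAt q) →
          s56t_cls p (s56t_coc r') hc ∈ W := by
  classical
  obtain ⟨L, hL1, hL2, hL3, hL4, hL5, hL6, hL7, hL8⟩ := hCls p k rb
  obtain ⟨hMfd, hMsm, hMni, hMni', hMur⟩ := hM p hp2 k rb hyp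
  haveI := hMfd
  have h2ne : (2 : k) ≠ 0 := by
    haveI : CharP k p := charP_of_injective_algebraMap (algebraMap (ZMod p) k).injective p
    intro h
    have h2 : ((2 : ℕ) : k) = 0 := by exact_mod_cast h
    have hdvd := (CharP.cast_eq_zero_iff k p 2).mp h2
    exact hp2 ((Nat.prime_dvd_prime_iff_eq (Fact.out : p.Prime) Nat.prime_two).mp hdvd)
  -- `Smin` as a set of primes
  let Sm : Finset Nat.Primes := Smin.subtype Nat.Prime
  have hmemSm : ∀ q : Nat.Primes, q ∈ Sm ↔ (q : ℕ) ∈ Smin := fun q => Finset.mem_subtype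
  have hpSm : pPrime p ∈ Sm := (hmemSm _).mpr hpSmin
  have hur : ∀ q : Nat.Primes, q ∉ Sm → rb.toResidualGaloisRep.IsUnramifiedAt (q : ℕ) := by
    intro q hq
    by_contra h
    have hqp : (q : ℕ) ≠ p := fun h' => hq ((hmemSm q).mpr (h' ▸ hpSmin))
    exact hq ((hmemSm q).mpr ((hmin q q.2 hqp).mpr h))
  have hMur' := hMur Sm hur
  -- the local subspaces
  have hloc : ∀ q : Nat.Primes, ∃ Cq : Submodule k (GQ → Matrix (Fin 2) (Fin 2) k), q ∈ Sm →
      (∀ r' : FramedRep (DualNumber k), (∀ σ, s56t_bar r' σ = rb σ) →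
        r'.toGaloisRepAdic.DetIsCyclotomic p → (q = pPrime p → Pp r') →
        (q ≠ pPrime p → r'.toGaloisRepAdic.IsUnipotentOnInertiaAt (q : ℕ)) →
        s56t_coc r' ∈ Cq) ∧
      FiniteDimensional k (↥Cq ⧸
        (s56a_cobOn rb ((primeLocalPlace q).decompositionSubgroup ℚ)).comap Cq.subtype) ∧
      finrank k (↥Cq ⧸
        (s56a_cobOn rb ((primeLocalPlace q).decompositionSubgroup ℚ)).comap Cq.subtype) ≤
        finrank k (s56a_inv rb ((primeLocalPlace q).decompositionSubgroup ℚ)) +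
          (if q = pPrime p then 1 else 0) := by
    intro q
    by_cases hq : q ∈ Sm
    · by_cases hqp : q = pPrime p
      · subst hqp
        obtain ⟨C0, h1, h2, h3⟩ := hPp
        refine ⟨C0, fun _ => ⟨fun r' hb hd hpp _ => h1 r' hb ⟨hd, hpp rfl⟩, h2, ?_⟩⟩
        rw [if_pos rfl]
        exact h3
      · haveI : Fact (q : ℕ).Prime := ⟨q.2⟩
        have hne : (q : ℕ) ≠ p := fun h => hqp (Subtype.ext h)
        have hram : ¬ rb.toResidualGaloisRep.IsUnramifiedAt (q : ℕ) :=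
          (hmin q q.2 hne).mp ((hmemSm q).mp hq)
        obtain ⟨C0, h1, h2, h3⟩ := hQ p hp2 k rb (q : ℕ) hne hram
        refine ⟨C0, fun _ => ⟨fun r' hb hd _ hu => h1 r' hb ⟨hd, hu hqp⟩, h2, ?_⟩⟩
        rw [if_neg hqp]
        exact h3
    · exact ⟨⊥, fun h => absurd h hq⟩
  choose Cq hCq using hloc
  -- the local conditions and the dual Selmer group
  let L' : s56gw_Cond (s56a_ad p rb) := fun q => L q (Cq q)
  have hLle : ∀ q ∈ Sm, L' q ≤ s56gw_cH1 (s56a_ad p rb) q := fun q _ => hL2 q (Cq q)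
  obtain ⟨D, hD1, hD2, hD3⟩ := hGW p hp2 Sm hpSm (s56a_ad p rb) hMsm hMur' hMni hMni' L' hLle
  haveI := hD2
  refine ⟨finrank (ZMod p) D, fun n => ?_⟩
  obtain ⟨qv, hqinj, hq1, hq2, hq3⟩ := hCheb p hp2 k rb hyp Sm hpSm hur D hD1 hD2 n S
  have hinj : Function.Injective (fun i => ((qv i : Nat.Primes) : ℕ)) :=
    fun i j h => hqinj (Subtype.ext h)
  refine ⟨fun i => ((qv i : Nat.Primes) : ℕ), hinj,
    fun i => ⟨(qv i).2, (hq1 i).1, (hq1 i).2⟩, hq2, ?_⟩
  -- the Taylor–Wiles set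
  let T : Finset Nat.Primes := Finset.univ.image qv
  have hmemT : ∀ q : Nat.Primes, q ∈ T ↔ ∃ i, qv i = q := fun q => by
    simp only [T, Finset.mem_image, Finset.mem_univ, true_and]
  have hTS : ∀ q ∈ T, (q : ℕ) ∉ S := by
    intro q hq
    obtain ⟨i, rfl⟩ := (hmemT q).mp hq
    exact (hq1 i).1
  have hdisj : Disjoint Sm T := by
    rw [Finset.disjoint_left]
    intro q hqS hqT
    exact hTS q hqT (hSmin ((hmemSm q).mp hqS))
  obtain ⟨hfd, hineq⟩ := hD3 T hdisj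
  haveI := hfd
  refine ⟨s56gw_Sel Sm T (s56a_ad p rb) L', Module.finite_of_finite (ZMod p), ?_, ?_⟩
  · -- the count
    apply s56t_card_le_of_finrank p _ _
    have hkilled : s56gw_killed T (s56gw_dual (s56a_ad p rb)) D = ⊥ := by
      rw [eq_bot_iff]
      intro y hy
      rw [s56gw_killed, Submodule.mem_inf] at hy
      refine (Submodule.mem_bot _).mpr (hq3 y hy.1 fun i => ?_)
      have h1 := hy.2
      simp only [Submodule.mem_iInf, LinearMap.mem_ker] at h1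
      exact h1 (qv i) ((hmemT _).mpr ⟨i, rfl⟩)
    refine s56a_arith _ _ _ _ _ _ _ _ _ hineq (by rw [hkilled, finrank_bot]) ?_
      (hL6 h2ne (hL7 hp2 hyp)) ?_
    · -- the local conditions at `Smin`
      calc ∑ q ∈ Sm, finrank (ZMod p) (L' q)
          ≤ ∑ q ∈ Sm, (finrank (ZMod p) k *
              finrank k (s56a_inv rb ((primeLocalPlace q).decompositionSubgroup ℚ)) +
              (if q = pPrime p then finrank (ZMod p) k else 0)) := by
            refine Finset.sum_le_sum fun q hq => ?_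
            obtain ⟨-, h2, h3⟩ := hCq q hq
            refine ((hL3 q (Cq q) h2).2).trans ?_
            refine (Nat.mul_le_mul_left _ h3).trans ?_
            rw [Nat.mul_add]
            split_ifs <;> simp
        _ = ∑ q ∈ Sm, finrank (ZMod p) k *
              finrank k (s56a_inv rb ((primeLocalPlace q).decompositionSubgroup ℚ)) +
              finrank (ZMod p) k := by
            rw [Finset.sum_add_distrib, Finset.sum_ite_eq' Sm (pPrime p), if_pos hpSm]
        _ ≤ ∑ q ∈ Sm, finrank (ZMod p) (s56gw_res (s56a_ad p rb) q).ρ.invariants +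
              finrank (ZMod p) k :=
            Nat.add_le_add_right (Finset.sum_le_sum fun q _ => hL4 q) _
    · -- the Taylor–Wiles primes
      have hcard : T.card = finrank (ZMod p) D := by
        rw [Finset.card_image_of_injective _ hqinj, Finset.card_univ, Fintype.card_fin]
      calc ∑ q ∈ T, finrank (ZMod p) (s56gw_cH1 (s56a_ad p rb) q)
          ≤ ∑ q ∈ T, (finrank (ZMod p) (s56gw_res (s56a_ad p rb) q).ρ.invariants +
              finrank (ZMod p) k) := by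
            refine Finset.sum_le_sum fun q hq => ?_
            obtain ⟨i, rfl⟩ := (hmemT q).mp hq
            have hqS : qv i ∉ Sm := fun h => (hq1 i).1 (hSmin ((hmemSm _).mp h))
            have hqp : ((qv i : Nat.Primes) : ℕ) ≠ p := fun h =>
              (hq1 i).1 (hSmin (h ▸ hpSmin))
            have hdvd : p ∣ ((qv i : Nat.Primes) : ℕ) - 1 :=
              (dvd_pow_self p (Nat.succ_ne_zero n)).trans (hq1 i).2
            have h1 := (hTWl p (s56a_ad p rb) hMsm (qv i) hqp hdvd (hMur' (qv i) hqS)).2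
            obtain ⟨hlo, φ, hφD, hφF⟩ := hL8 (qv i)
            have h2 := hL5 (qv i) φ hφD (hq2 i _ hlo φ hφF)
            omega
        _ = ∑ q ∈ T, finrank (ZMod p) (s56gw_res (s56a_ad p rb) q).ρ.invariants +
              finrank (ZMod p) D * finrank (ZMod p) k := by
            rw [Finset.sum_add_distrib, Finset.sum_const, hcard, smul_eq_mul]
  · -- membership of the deformation classes
    intro r' hc hbar hdet hPp' hunr hunip
    rw [s56gw_Sel, Submodule.mem_inf]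
    constructor
    · refine s56t_framed_cls_mem p r' hbar hc.2 (Sm ∪ T) fun q hq A hA g hg => ?_
      have hq' : (q : ℕ) ∉ Smin ∪ Finset.univ.image (fun i => ((qv i : Nat.Primes) : ℕ)) := by
        intro h
        rw [Finset.mem_union] at h
        rcases h with h | h
        · exact hq (Finset.mem_union_left _ ((hmemSm q).mpr h))
        · obtain ⟨i, -, hi⟩ := Finset.mem_image.mp h
          exact hq (Finset.mem_union_right _ ((hmemT q).mpr ⟨i, Subtype.ext hi⟩))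
      exact (s56t_unram r' (hunr q q.2 hq') A hA g hg).1
    · simp only [Submodule.mem_iInf, Submodule.mem_comap]
      intro q hq
      have hZ : s56t_coc r' ∈ s56a_Z rb := by
        obtain ⟨L0, hL0, h0⟩ := s56t_coc_level r'
        exact ⟨hc.2, hc.1, L0, hL0, fun σ s hs => (h0 σ s hs).1⟩
      refine hL1 q (Cq q) (s56t_coc r') hc ((hCq q hq).1 r' hbar hdet (fun _ => hPp') ?_) hZ
      intro hqp
      have hne : (q : ℕ) ≠ p := fun h => hqp (Subtype.ext h)
      exact hunip q ((hmemSm q).mp hq) q.2 hne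

end core

section halves

variable {𝒪 : Type} [CommRing 𝒪] [IsDomain 𝒪] [IsDiscreteValuationRing 𝒪]
  [IsAdicComplete (maximalIdeal 𝒪) 𝒪] [Finite (ResidueField 𝒪)]

attribute [local instance] S53.dualNumberAlgebra

theorem s56a_charP (p : ℕ) [hp : Fact p.Prime] (hp𝒪 : (p : 𝒪) ∈ maximalIdeal 𝒪) :
    CharP (ResidueField 𝒪) p := by
  have h0 : (p : ResidueField 𝒪) = 0 := by
    have : (residue 𝒪) (p : 𝒪) = 0 := (residue_eq_zero_iff _).mpr hp𝒪
    rwa [map_natCast] at this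
  obtain ⟨q, hq⟩ := CharP.exists (ResidueField 𝒪)
  have hdvd : q ∣ p := (CharP.cast_eq_zero_iff (ResidueField 𝒪) q p).mp h0
  rcases (Nat.dvd_prime hp.out).mp hdvd with h1 | h1
  · subst h1
    have h1 : (1 : ResidueField 𝒪) = 0 := by
      have := CharP.cast_eq_zero (ResidueField 𝒪) 1
      rwa [Nat.cast_one] at this
    exact absurd h1 one_ne_zero
  · subst h1; exact hq

/-- **the strict-ordinary half.** -/
theorem s56a_strict (hGW : s56gw_Main_stmt) (hCls : s56a_Cls_stmt) (hQ : s56a_LocQ_stmt)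
    (hP : s56a_LocPOrd_stmt) (hTWl : s56a_LocTW_stmt) (hCheb : s56a_Cheb_stmt)
    (hM : s56a_M_stmt) (hHE : s56a_HypEquiv_stmt)
    (p : ℕ) [Fact p.Prime] (hp2 : p ≠ 2) (hp𝒪 : (p : 𝒪) ∈ maximalIdeal 𝒪)
    (ρbar : ResidualGaloisRep (ResidueField 𝒪)) (hyp : s56a_Hyp p ρbar)
    (S Smin : Finset ℕ) (hpSmin : p ∈ Smin) (hSmin : Smin ⊆ S)
    (hmin : ∀ q : ℕ, q.Prime → q ≠ p → (q ∈ Smin ↔ ¬ ρbar.IsUnramifiedAt q)) :
    s56ps_SelStrict_stmt p ρbar S Smin := by
  classical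
  haveI : CharP (ResidueField 𝒪) p := s56a_charP p hp𝒪
  letI : Algebra (ZMod p) (ResidueField 𝒪) := ZMod.algebra _ p
  obtain ⟨rb, hrb⟩ := exists_framedResidual ρbar
  obtain ⟨hyp', hunr, hchar⟩ := hHE p _ ρbar rb hrb hyp
  obtain ⟨r, h⟩ := s56a_core p hGW hCls hQ hTWl hCheb hM hp2 rb hyp'
    (fun r => r.toGaloisRepAdic.IsStrictOrdinaryAt p) (hP p hp2 _ rb) S Smin hpSmin hSmin
    (fun q hq hqp => by rw [← hunr q]; exact hmin q hq hqp)
  refine ⟨r, fun n => ?_⟩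
  obtain ⟨qv, h1, h2, h3, W, hWfin, hWcard, hWmem⟩ := h n
  refine ⟨qv, h1, h2, fun i P hP φ hφ => by rw [hchar φ]; exact h3 i P hP φ hφ,
    fun DQ F _ => ?_⟩
  haveI := hWfin
  exact s56t_count_strict p Smin (Smin ∪ Finset.univ.image qv) DQ rb hrb W
    (fun r' hc hbar h𝒟 => hWmem r' hc hbar h𝒟.1.1 h𝒟.1.2.1 h𝒟.1.2.2 h𝒟.2) r hWcard F

/-- **the flat half.** -/
theorem s56a_flat (hGW : s56gw_Main_stmt) (hCls : s56a_Cls_stmt) (hQ : s56a_LocQ_stmt)
    (hP : s56a_LocPFlat_stmt) (hTWl : s56a_LocTW_stmt) (hCheb : s56a_Cheb_stmt)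
    (hM : s56a_M_stmt) (hHE : s56a_HypEquiv_stmt)
    (p : ℕ) [Fact p.Prime] (hp2 : p ≠ 2) (hp𝒪 : (p : 𝒪) ∈ maximalIdeal 𝒪)
    (ρbar : ResidualGaloisRep (ResidueField 𝒪)) (hyp : s56a_Hyp p ρbar)
    (S Smin : Finset ℕ) (hpSmin : p ∈ Smin) (hSmin : Smin ⊆ S)
    (hmin : ∀ q : ℕ, q.Prime → q ≠ p → (q ∈ Smin ↔ ¬ ρbar.IsUnramifiedAt q)) :
    s56ps_SelFlat_stmt p ρbar S Smin := by
  classical
  haveI : CharP (ResidueField 𝒪) p := s56a_charP p hp𝒪
  letI : Algebra (ZMod p) (ResidueField 𝒪) := ZMod.algebra _ p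
  obtain ⟨rb, hrb⟩ := exists_framedResidual ρbar
  obtain ⟨hyp', hunr, hchar⟩ := hHE p _ ρbar rb hrb hyp
  obtain ⟨r, h⟩ := s56a_core p hGW hCls hQ hTWl hCheb hM hp2 rb hyp'
    (fun r => r.toGaloisRepAdic.IsFlatAt p) (hP p hp2 _ rb hyp'.hsplit) S Smin hpSmin hSmin
    (fun q hq hqp => by rw [← hunr q]; exact hmin q hq hqp)
  refine ⟨r, fun n => ?_⟩
  obtain ⟨qv, h1, h2, h3, W, hWfin, hWcard, hWmem⟩ := h n
  refine ⟨qv, h1, h2, fun i P hP φ hφ => by rw [hchar φ]; exact h3 i P hP φ hφ,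
    fun DQ F _ => ?_⟩
  haveI := hWfin
  exact s56t_count_flat p Smin (Smin ∪ Finset.univ.image qv) DQ rb hrb W
    (fun r' hc hbar h𝒟 => hWmem r' hc hbar h𝒟.1.1 h𝒟.1.2.1 h𝒟.1.2.2 h𝒟.2) r hWcard F

/-- **S56 from the seams**: the conclusion of the frozen statement S56 from its hypotheses and
the seams of the nodes [GW], [ASM-CLS], [LOC-q], [LOC-p-ORD], [LOC-p-FLAT], [LOC-TW], [CHEB],
[ASM-M]. -/
theorem s56a_main (hGW : s56gw_Main_stmt) (hCls : s56a_Cls_stmt) (hQ : s56a_LocQ_stmt)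
    (hPo : s56a_LocPOrd_stmt) (hPf : s56a_LocPFlat_stmt) (hTWl : s56a_LocTW_stmt)
    (hCheb : s56a_Cheb_stmt) (hM : s56a_M_stmt) (hHE : s56a_HypEquiv_stmt)
    (p : ℕ) [Fact p.Prime] (hp2 : p ≠ 2) (hp𝒪 : (p : 𝒪) ∈ maximalIdeal 𝒪)
    (ρbar : ResidualGaloisRep (ResidueField 𝒪))
    (habs : ρbar.IsAbsolutelyIrreducible)
    (hdet : (GaloisRepAdic.ofResidualGaloisRep ρbar).DetIsCyclotomic p)
    (hsplit : ∀ σ : AlgebraicClosure ℚ ≃ₐ[ℚ] AlgebraicClosure ℚ,
      ∃ α β : ResidueField 𝒪, LinearMap.charpoly (ρbar.ρ σ) = (X - C α) * (X - C β))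
    (hTW : ∀ (K : Type) [Field K] [Algebra (ResidueField 𝒪) K]
      (G : Subgroup (AlgebraicClosure ℚ ≃ₐ[ℚ] AlgebraicClosure ℚ)), G.index = 2 →
      ∀ V : Submodule K (ρbar.baseChange K).V,
        (∀ σ ∈ G, ∀ x ∈ V, (ρbar.baseChange K).ρ σ x ∈ V) → V = ⊥ ∨ V = ⊤)
    (S Smin : Finset ℕ) (hpSmin : p ∈ Smin) (hSmin : Smin ⊆ S)
    (hmin : ∀ q : ℕ, q.Prime → q ≠ p → (q ∈ Smin ↔ ¬ ρbar.IsUnramifiedAt q)) :
    (∃ r : ℕ, ∀ n : ℕ, ∃ qv : Fin r → ℕ, Function.Injective qv ∧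
      (∀ i, (qv i).Prime ∧ qv i ∉ S ∧ p ^ (n + 1) ∣ qv i - 1) ∧
      (∀ i, ∀ P : ValuationSubring (AlgebraicClosure ℚ), P.LiesOverPrime (qv i) →
        ∀ φ : AlgebraicClosure ℚ ≃ₐ[ℚ] AlgebraicClosure ℚ, P.IsFrobeniusAt φ (qv i) →
          ∃ α β : ResidueField 𝒪, α ≠ β ∧
            LinearMap.charpoly (ρbar.ρ φ) = (X - C α) * (X - C β)) ∧
      ∀ DQ : GaloisRep.DeformationRingData 𝒪 ρbar (fun _A _ _ _ ρ =>
          GaloisRep.strictOrdinaryCondition 𝒪 p (Smin ∪ Finset.univ.image qv) ρ ∧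
            ∀ q ∈ Smin, q.Prime → q ≠ p → ρ.IsUnipotentOnInertiaAt q),
        ∃ γ : MvPowerSeries (Fin r) 𝒪 →ₐ[𝒪] DQ.R, Function.Surjective γ) ∧
    (∃ r : ℕ, ∀ n : ℕ, ∃ qv : Fin r → ℕ, Function.Injective qv ∧
      (∀ i, (qv i).Prime ∧ qv i ∉ S ∧ p ^ (n + 1) ∣ qv i - 1) ∧
      (∀ i, ∀ P : ValuationSubring (AlgebraicClosure ℚ), P.LiesOverPrime (qv i) →
        ∀ φ : AlgebraicClosure ℚ ≃ₐ[ℚ] AlgebraicClosure ℚ, P.IsFrobeniusAt φ (qv i) →
          ∃ α β : ResidueField 𝒪, α ≠ β ∧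
            LinearMap.charpoly (ρbar.ρ φ) = (X - C α) * (X - C β)) ∧
      ∀ DQ : GaloisRep.DeformationRingData 𝒪 ρbar (fun _A _ _ _ ρ =>
          GaloisRep.flatCondition 𝒪 p (Smin ∪ Finset.univ.image qv) ρ ∧
            ∀ q ∈ Smin, q.Prime → q ≠ p → ρ.IsUnipotentOnInertiaAt q),
        ∃ γ : MvPowerSeries (Fin r) 𝒪 →ₐ[𝒪] DQ.R, Function.Surjective γ) :=
  s56ps_top p ρbar S Smin
    (s56a_strict hGW hCls hQ hPo hTWl hCheb hM hHE p hp2 hp𝒪 ρbar ⟨habs, hdet, hsplit, hTW⟩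
      S Smin hpSmin hSmin hmin)
    (s56a_flat hGW hCls hQ hPf hTWl hCheb hM hHE p hp2 hp𝒪 ρbar ⟨habs, hdet, hsplit, hTW⟩
      S Smin hpSmin hSmin hmin)

end halves

end

end Fermat.Agent.S56
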