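/-
S56, node [ASM], cell (ASM-M) (helper22): the two seams `s56a_HypEquiv_stmt` and `s56a_M_stmt` of
`S56/Asm/Seams.lean`.

* `s56am_hypEquiv : s56a_HypEquiv_stmt` : the standing hypotheses pass from `ρbar` to an equivalent
  framed residual representation;
* `s56am_M : s56a_M_stmt` : `M = ad⁰ rb` is finite, smooth, has `H⁰(M) = H⁰(M^*(1)) = 0`, and is
  unramified wherever `rb` is.
Prefix `s56am_`.
-/
import Mathlib
import Fermat.Agent.S56.Asm.Seams
import Fermat.Agent.S56.Asm.AdInv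
import Fermat.Agent.S56.Tan.Transport

set_option autoImplicit false
set_option linter.unusedSectionVars false

open Polynomial CategoryTheory groupCohomology ExtCitation

namespace Fermat.Agent.S56

open Fermat.Agent.S53

noncomputable section

variable {k : Type} [Field k]

/-- an equivalence of residual representations, as an equivalence of the attached
`GaloisRepAdic`s -/
def s56am_adicEquiv {ρ ρ' : ResidualGaloisRep k} (e : ρ.Equiv ρ') :
    (GaloisRepAdic.ofResidualGaloisRep ρ).Equiv (GaloisRepAdic.ofResidualGaloisRep ρ') where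
  toLinearEquiv := e.toLinearEquiv
  map_apply := e.map_apply

theorem s56am_charpoly_of_equiv {ρ ρ' : ResidualGaloisRep k} (e : ρ.Equiv ρ') (σ : GQ) :
    LinearMap.charpoly (ρ.ρ σ) = LinearMap.charpoly (ρ'.ρ σ) :=
  (s56t_tr_charpoly (s56am_adicEquiv e) σ).symm

/-- **[ASM-M] (1)**. -/
theorem s56am_hypEquiv : s56a_HypEquiv_stmt := by
  intro p k _ ρbar rb hequiv hyp
  obtain ⟨e⟩ := hequiv
  refine ⟨⟨s56am_habs_of_isEquiv ⟨e⟩ hyp.habs,
    s56t_tr_detIsCyclotomic (s56am_adicEquiv e) hyp.hdet, fun σ => ?_,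
    s56am_hTW_of_isEquiv ⟨e⟩ hyp.hTW⟩, fun q => ⟨s56am_unr_of_isEquiv ⟨e⟩,
      s56am_unr_of_isEquiv ⟨e.symm⟩⟩, fun σ => s56am_charpoly_of_equiv e σ⟩
  obtain ⟨α, β, h⟩ := hyp.hsplit σ
  exact ⟨α, β, by rw [← s56am_charpoly_of_equiv e σ]; exact h⟩

/-- `2 ≠ 0` in a field of odd characteristic `p` -/
theorem s56am_two_ne_zero (p : ℕ) [Fact p.Prime] (hp2 : p ≠ 2) [Algebra (ZMod p) k] :
    (2 : k) ≠ 0 := by
  intro h
  have h1 : algebraMap (ZMod p) k (2 : ZMod p) = 0 := by rw [map_ofNat]; exact h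
  have h2 : (2 : ZMod p) = 0 := (map_eq_zero (algebraMap (ZMod p) k)).mp h1
  have h3 : ((2 : ℕ) : ZMod p) = 0 := by exact_mod_cast h2
  rw [ZMod.natCast_eq_zero_iff] at h3
  have hp : p.Prime := Fact.out
  rcases (Nat.dvd_prime Nat.prime_two).mp h3 with h4 | h4
  · exact hp.one_lt.ne' h4
  · exact hp2 h4

/-- **[ASM-M] (2)**. -/
theorem s56am_M : s56a_M_stmt := by
  intro p _ hp2 k _ _ _ rb hyp
  have h2 : (2 : k) ≠ 0 := s56am_two_ne_zero p hp2
  exact ⟨inferInstance, s56am_smooth p rb, s56am_noInv p rb h2 hyp.habs,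
    s56am_noInv_dual p rb h2 hyp.habs hyp.hTW, fun Sm hur => s56am_unrOut p rb Sm hur⟩

end

end Fermat.Agent.S56
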