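/-
S56, node [ASM], cell (ASM-M) (helper22): the name asked for in ruling #3.
`s56am_main : s56a_M_stmt` (= `s56am_M` of `Asm/M.lean`).
-/
import Fermat.Agent.S56.Asm.M

set_option autoImplicit false

namespace Fermat.Agent.S56

/-- **[ASM-M] (2)** under the name of ruling #3. -/
theorem s56am_main : s56a_M_stmt := s56am_M

end Fermat.Agent.S56
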