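/-
S56, node [ASM], cell (ASM-M) (helper22): `H⁰(G_ℚ, ad⁰ ρ̄) = 0` AND `H⁰(G_ℚ, (ad⁰ ρ̄)^*(1)) = 0`,
for helper9's `s56t_ad0 p rb.toMonoidHom : Rep (ZMod p) G_ℚ` (`S56/Tan/Rep.lean`).

* `s56am_schur`     : a matrix commuting with an absolutely irreducible `rb` is scalar;
* `s56am_noInv`     : `s56gw_NoInv (s56t_ad0 p rb.toMonoidHom)`;
* `s56am_ad_irr`    : matrix form of helper24's `s56g_res_ad_irr`: a `k`-subspace of the trace-zero
  matrices stable under conjugation by `rb` is `⊥` or everything;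
* `s56am_noInv_dual`: `s56gw_NoInv (s56gw_dual (s56t_ad0 p rb.toMonoidHom))`  (`k` finite);
* `s56am_habs_of_isEquiv`, `s56am_hTW_of_isEquiv` : transport of the frozen hypotheses `habs`,
  `hTW` along an equivalence `ρbar ≃ rb.toResidualGaloisRep`.
Prefix `s56am_`.
-/
import Mathlib
import Fermat.Agent.S56.Tan.Rep
import Fermat.Agent.S56.Grp.Residual
import Fermat.Agent.S53.Schur
import Fermat.Agent.S53.FramedResidual
import Fermat.Prelude.Def_GaloisRep_ResidualEquiv

set_option autoImplicit false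
set_option linter.unusedSectionVars false

open CategoryTheory groupCohomology ExtCitation

namespace Fermat.Agent.S56

open Fermat.Agent.S53 Matrix TensorProduct

noncomputable section

variable {k : Type} [Field k]

/-! ### transport of the frozen hypotheses along an equivalence -/

section transport

variable {ρ ρ' : ResidualGaloisRep k}

/-- the base change of an equivalence, with its equivariance -/
theorem s56am_baseChange_equiv (e : ρ.Equiv ρ') (K : Type) [Field K] [Algebra k K] (σ : GQ)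
    (x : K ⊗[k] ρ.V) :
    e.toLinearEquiv.baseChange k K ρ.V ρ'.V ((ρ.baseChange K).ρ σ x) =
      (ρ'.baseChange K).ρ σ (e.toLinearEquiv.baseChange k K ρ.V ρ'.V x) := by
  show e.toLinearEquiv.baseChange k K ρ.V ρ'.V ((ρ.ρ σ).baseChange K x) =
    (ρ'.ρ σ).baseChange K (e.toLinearEquiv.baseChange k K ρ.V ρ'.V x)
  induction x using TensorProduct.induction_on with
  | zero => simp only [map_zero]
  | tmul b v =>
    rw [LinearMap.baseChange_tmul, LinearEquiv.baseChange_tmul, LinearEquiv.baseChange_tmul,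
      LinearMap.baseChange_tmul, e.map_apply]
  | add x y hx hy => simp only [map_add, hx, hy]

/-- irreducibility of a subgroup after base change is invariant under equivalence -/
theorem s56am_irr_of_equiv (e : ρ.Equiv ρ') (K : Type) [Field K] [Algebra k K]
    (G : Subgroup GQ)
    (h : ∀ V : Submodule K (ρ.baseChange K).V,
      (∀ σ ∈ G, ∀ x ∈ V, (ρ.baseChange K).ρ σ x ∈ V) → V = ⊥ ∨ V = ⊤)
    (V' : Submodule K (ρ'.baseChange K).V)
    (hV' : ∀ σ ∈ G, ∀ x ∈ V', (ρ'.baseChange K).ρ σ x ∈ V') : V' = ⊥ ∨ V' = ⊤ := by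
  set E : (K ⊗[k] ρ.V) ≃ₗ[K] (K ⊗[k] ρ'.V) := e.toLinearEquiv.baseChange k K ρ.V ρ'.V with hE
  have hst : ∀ σ ∈ G, ∀ x ∈ V'.comap (E : (K ⊗[k] ρ.V) →ₗ[K] (K ⊗[k] ρ'.V)),
      (ρ.baseChange K).ρ σ x ∈ V'.comap (E : (K ⊗[k] ρ.V) →ₗ[K] (K ⊗[k] ρ'.V)) := by
    intro σ hσ x hx
    rw [Submodule.mem_comap] at hx ⊢
    rw [LinearEquiv.coe_coe, hE, s56am_baseChange_equiv e K σ x]
    exact hV' σ hσ _ hx
  rcases h _ hst with h0 | h1
  · left
    rw [eq_bot_iff]
    intro y hy
    have : E.symm y ∈ V'.comap (E : (K ⊗[k] ρ.V) →ₗ[K] (K ⊗[k] ρ'.V)) := by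
      rw [Submodule.mem_comap, LinearEquiv.coe_coe, LinearEquiv.apply_symm_apply]
      exact hy
    rw [h0, Submodule.mem_bot] at this
    rw [Submodule.mem_bot, ← E.apply_symm_apply y, this, map_zero]
  · right
    rw [eq_top_iff]
    intro y _
    have : E.symm y ∈ V'.comap (E : (K ⊗[k] ρ.V) →ₗ[K] (K ⊗[k] ρ'.V)) := by
      rw [h1]; trivial
    rw [Submodule.mem_comap, LinearEquiv.coe_coe, LinearEquiv.apply_symm_apply] at this
    exact this

/-- absolute irreducibility is invariant under equivalence -/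
theorem s56am_habs_of_isEquiv (h : ρ.IsEquiv ρ') (habs : ρ.IsAbsolutelyIrreducible) :
    ρ'.IsAbsolutelyIrreducible := by
  obtain ⟨e⟩ := h
  intro V' hV'
  refine s56am_irr_of_equiv e (AlgebraicClosure k) ⊤
    (fun V hV => habs V (fun σ x hx => hV σ (Subgroup.mem_top σ) x hx)) V'
    (fun σ _ x hx => hV' σ x hx)

/-- the Taylor–Wiles hypothesis `hTW` is invariant under equivalence -/
theorem s56am_hTW_of_isEquiv (h : ρ.IsEquiv ρ') (hTW : s56g_TWHyp ρ) : s56g_TWHyp ρ' := by
  obtain ⟨e⟩ := h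
  intro K _ _ G hG V' hV'
  exact s56am_irr_of_equiv e K G (fun V hV => hTW K G hG V hV) V' hV'

/-- unramifiedness is invariant under equivalence -/
theorem s56am_unr_of_isEquiv (h : ρ.IsEquiv ρ') {q : ℕ} (hq : ρ.IsUnramifiedAt q) :
    ρ'.IsUnramifiedAt q := by
  obtain ⟨e⟩ := h
  intro A hA σ hσ
  have h1 := hq A hA σ hσ
  refine LinearMap.ext fun x => ?_
  have h2 := e.map_apply σ (e.toLinearEquiv.symm x)
  rw [LinearEquiv.apply_symm_apply, h1, Module.End.one_apply, LinearEquiv.apply_symm_apply] at h2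
  rw [← h2]; rfl

end transport

/-! ### Schur's lemma and the irreducibility of `ad⁰`, matrix form -/

section matrix

variable (rb : FramedResidual k)

/-- **Schur** in matrix form. -/
theorem s56am_schur (habs : rb.toResidualGaloisRep.IsAbsolutelyIrreducible)
    (m : Matrix (Fin 2) (Fin 2) k) (hm : ∀ σ : GQ, m * rb σ = rb σ * m) :
    ∃ c : k, m = c • (1 : Matrix (Fin 2) (Fin 2) k) := by
  obtain ⟨c, hc⟩ := schur_of_isAbsolutelyIrreducible rb.toResidualGaloisRep habs
    (Matrix.toLin' m) (fun σ => by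
      show Matrix.toLin' m * Matrix.toLin' (rb σ) = Matrix.toLin' (rb σ) * Matrix.toLin' m
      rw [Module.End.mul_eq_comp, Module.End.mul_eq_comp, ← Matrix.toLin'_mul,
        ← Matrix.toLin'_mul, hm σ])
  refine ⟨c, ?_⟩
  apply Matrix.toLin'.injective
  rw [map_smul, Matrix.toLin'_one]
  exact hc

/-- the trace-zero matrices fixed by the conjugation action of an absolutely irreducible `rb`
vanish (`2 ≠ 0`). -/
theorem s56am_fixed_eq_zero (h2 : (2 : k) ≠ 0)
    (habs : rb.toResidualGaloisRep.IsAbsolutelyIrreducible) (m : Matrix (Fin 2) (Fin 2) k)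
    (htr : Matrix.trace m = 0) (hm : ∀ σ : GQ, rb σ * m * rb σ⁻¹ = m) : m = 0 := by
  have hcomm : ∀ σ : GQ, m * rb σ = rb σ * m := by
    intro σ
    have h1 : rb σ * m * rb σ⁻¹ * rb σ = m * rb σ := by rw [hm σ]
    rw [Matrix.mul_assoc, ← rb.map_mul, inv_mul_cancel, rb.map_one, Matrix.mul_one] at h1
    exact h1.symm
  obtain ⟨c, hc⟩ := s56am_schur rb habs m hcomm
  rw [hc, Matrix.trace_smul, Matrix.trace_one, Fintype.card_fin, smul_eq_mul] at htr
  have hc0 : c = 0 := by
    rcases mul_eq_zero.mp htr with h | h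
    · exact h
    · exact absurd (by exact_mod_cast h) h2
  rw [hc, hc0, zero_smul]

/-- **irreducibility of `ad⁰ ρ̄`**, matrix form. -/
theorem s56am_ad_irr (h2 : (2 : k) ≠ 0) (habs : rb.toResidualGaloisRep.IsAbsolutelyIrreducible)
    (hTW : s56g_TWHyp rb.toResidualGaloisRep) (W : Submodule k (Matrix (Fin 2) (Fin 2) k))
    (hW0 : ∀ A ∈ W, Matrix.trace A = 0)
    (hst : ∀ g : GQ, ∀ A ∈ W, rb g * A * rb g⁻¹ ∈ W) :
    W = ⊥ ∨ ∀ A : Matrix (Fin 2) (Fin 2) k, Matrix.trace A = 0 → A ∈ W := by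
  set e : Matrix (Fin 2) (Fin 2) k →ₗ[k] Module.End k (Fin 2 → k) :=
    (Matrix.toLin' : Matrix (Fin 2) (Fin 2) k ≃ₗ[k] _).toLinearMap with he
  have hinj : Function.Injective e := Matrix.toLin'.injective
  have key := s56g_res_ad_irr rb.toResidualGaloisRep h2 habs hTW (W.map e) (by
      rintro _ ⟨A, hA, rfl⟩
      show LinearMap.trace k (Fin 2 → k) (Matrix.toLin' A) = 0
      rw [Matrix.trace_toLin'_eq]
      exact hW0 A hA) (by
      rintro g _ ⟨A, hA, rfl⟩
      refine ⟨rb g * A * rb g⁻¹, hst g A hA, ?_⟩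
      show Matrix.toLin' (rb g * A * rb g⁻¹) =
        Matrix.toLin' (rb g) * Matrix.toLin' A * Matrix.toLin' (rb g⁻¹)
      rw [Matrix.toLin'_mul, Matrix.toLin'_mul]
      rfl)
  rcases key with h0 | h1
  · left
    rw [eq_bot_iff]
    intro A hA
    have h3 : e A ∈ W.map e := ⟨A, hA, rfl⟩
    have h4 := (SetLike.ext_iff.mp h0 (e A)).mp h3
    rw [Submodule.mem_bot] at h4
    rw [Submodule.mem_bot]
    exact hinj (h4.trans (map_zero e).symm)
  · right
    intro A hA
    have h3 : e A ∈ W.map e := by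
      refine (SetLike.ext_iff.mp h1 (e A)).mpr ?_
      rw [LinearMap.mem_ker]
      show LinearMap.trace k (Fin 2 → k) (Matrix.toLin' A) = 0
      rw [Matrix.trace_toLin'_eq]
      exact hA
    obtain ⟨A', hA', hAA'⟩ := h3
    rw [← hinj hAA']
    exact hA'

end matrix

/-! ### `H⁰(G_ℚ, ad⁰ ρ̄) = 0` -/

section inv

variable (p : ℕ) [Fact p.Prime] [Algebra (ZMod p) k] (rb : FramedResidual k)

/-- **`H⁰(G_ℚ, ad⁰ ρ̄) = 0`** (Schur; `2 ≠ 0`). -/
theorem s56am_noInv (h2 : (2 : k) ≠ 0) (habs : rb.toResidualGaloisRep.IsAbsolutelyIrreducible) :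
    s56gw_NoInv (s56t_ad0 p rb.toMonoidHom) := by
  intro m hm
  apply s56t_val_injective p rb.toMonoidHom
  rw [s56t_val_zero]
  refine s56am_fixed_eq_zero rb h2 habs _ (s56t_trace_val p rb.toMonoidHom m) (fun σ => ?_)
  have := congrArg (s56t_val p rb.toMonoidHom) (hm σ)
  rwa [s56t_val_rho] at this

/-! ### `H⁰(G_ℚ, (ad⁰ ρ̄)^*(1)) = 0` -/

/-- the `𝔽_p`-linear map `a ↦ a • x` from `k` to `ad⁰` (`x` a trace-zero matrix) -/
def s56am_line (x : Matrix (Fin 2) (Fin 2) k) (hx : Matrix.trace x = 0) :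
    k →ₗ[ZMod p] (s56t_ad0 p rb.toMonoidHom).V where
  toFun a := s56t_mkV p rb.toMonoidHom (a • x) (by rw [Matrix.trace_smul, hx, smul_zero])
  map_add' a b := by
    apply s56t_val_injective p rb.toMonoidHom
    rw [s56t_val_add, s56t_val_mkV, s56t_val_mkV, s56t_val_mkV, add_smul]
  map_smul' c a := by
    apply s56t_val_injective p rb.toMonoidHom
    rw [s56t_val_mkV, RingHom.id_apply, smul_assoc]
    rfl

theorem s56am_val_line (x : Matrix (Fin 2) (Fin 2) k) (hx : Matrix.trace x = 0) (a : k) :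
    s56t_val p rb.toMonoidHom (s56am_line p rb x hx a) = a • x := rfl

/-- a functional on `ad⁰` that vanishes on the `k`-line through every trace-zero matrix of a
`k`-subspace: the largest `k`-subspace in its kernel -/
def s56am_kerK (f : (s56t_ad0 p rb.toMonoidHom).V →ₗ[ZMod p] ZMod p) :
    Submodule k (Matrix (Fin 2) (Fin 2) k) where
  carrier := {x | ∃ hx : Matrix.trace x = 0, ∀ a : k, f (s56am_line p rb x hx a) = 0}
  zero_mem' := by
    refine ⟨Matrix.trace_zero _ _, fun a => ?_⟩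
    have : s56am_line p rb 0 (Matrix.trace_zero _ _) a = 0 := by
      apply s56t_val_injective p rb.toMonoidHom
      rw [s56am_val_line, smul_zero, s56t_val_zero]
    rw [this, map_zero]
  add_mem' := by
    rintro x y ⟨hx, hfx⟩ ⟨hy, hfy⟩
    have hxy : Matrix.trace (x + y) = 0 := by rw [Matrix.trace_add, hx, hy, add_zero]
    refine ⟨hxy, fun a => ?_⟩
    have : s56am_line p rb (x + y) hxy a = s56am_line p rb x hx a + s56am_line p rb y hy a := by
      apply s56t_val_injective p rb.toMonoidHom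
      rw [s56t_val_add, s56am_val_line, s56am_val_line, s56am_val_line, smul_add]
    rw [this, map_add, hfx a, hfy a, add_zero]
  smul_mem' := by
    rintro c x ⟨hx, hfx⟩
    have hcx : Matrix.trace (c • x) = 0 := by rw [Matrix.trace_smul, hx, smul_zero]
    refine ⟨hcx, fun a => ?_⟩
    have : s56am_line p rb (c • x) hcx a = s56am_line p rb x hx (a * c) := by
      apply s56t_val_injective p rb.toMonoidHom
      rw [s56am_val_line, s56am_val_line, smul_smul]
    rw [this, hfx]

theorem s56am_mem_kerK (f : (s56t_ad0 p rb.toMonoidHom).V →ₗ[ZMod p] ZMod p)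
    {x : Matrix (Fin 2) (Fin 2) k} :
    x ∈ s56am_kerK p rb f ↔
      ∃ hx : Matrix.trace x = 0, ∀ a : k, f (s56am_line p rb x hx a) = 0 := Iff.rfl

/-- **`H⁰(G_ℚ, (ad⁰ ρ̄)^*(1)) = 0`** (`ad⁰` is irreducible of `k`-dimension `3 > 1`). -/
theorem s56am_noInv_dual [Finite k] (h2 : (2 : k) ≠ 0)
    (habs : rb.toResidualGaloisRep.IsAbsolutelyIrreducible)
    (hTW : s56g_TWHyp rb.toResidualGaloisRep) :
    s56gw_NoInv (s56gw_dual (s56t_ad0 p rb.toMonoidHom)) := by
  intro f' hf'
  -- `f'` as a functional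
  set f : (s56t_ad0 p rb.toMonoidHom).V →ₗ[ZMod p] ZMod p := f' with hf
  -- semi-invariance
  have hsemi : ∀ (g : GQ) (y : (s56t_ad0 p rb.toMonoidHom).V), f y = 0 →
      f ((s56t_ad0 p rb.toMonoidHom).ρ g y) = 0 := by
    intro g y hy
    have h1 := hf' g⁻¹
    rw [Rep.dualTwist_ρ_apply, inv_inv] at h1
    have h3 : ((cycloChar p g⁻¹ : (ZMod p)ˣ) : ZMod p) • f ((s56t_ad0 p rb.toMonoidHom).ρ g y)
        = f y := by
      have h4 := congrArg (fun φ : Module.Dual (ZMod p) (s56t_ad0 p rb.toMonoidHom) => φ y) h1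
      exact h4
    rw [hy, smul_eq_mul] at h3
    rcases mul_eq_zero.mp h3 with h5 | h5
    · exact absurd h5 (Units.ne_zero _)
    · exact h5
  -- the `k`-subspace `W`
  have hW0 : ∀ A ∈ s56am_kerK p rb f, Matrix.trace A = 0 := fun A hA => hA.1
  have hst : ∀ g : GQ, ∀ A ∈ s56am_kerK p rb f, rb g * A * rb g⁻¹ ∈ s56am_kerK p rb f := by
    rintro g A ⟨hA, hfA⟩
    have htr : Matrix.trace (rb g * A * rb g⁻¹) = 0 := by
      rw [s56t_trace_conj rb.toMonoidHom g A, hA]
    refine ⟨htr, fun a => ?_⟩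
    have : s56am_line p rb (rb g * A * rb g⁻¹) htr a
        = (s56t_ad0 p rb.toMonoidHom).ρ g (s56am_line p rb A hA a) := by
      apply s56t_val_injective p rb.toMonoidHom
      rw [s56t_val_rho, s56am_val_line, s56am_val_line, Matrix.mul_smul, Matrix.smul_mul]
    rw [this]
    exact hsemi g _ (hfA a)
  rcases s56am_ad_irr rb h2 habs hTW (s56am_kerK p rb f) hW0 hst with hbot | htop
  · -- `W = ⊥` is impossible: `dim_k ad⁰ = 3 > 1`
    exfalso
    set E : Matrix (Fin 2) (Fin 2) k := !![0, 1; 0, 0] with hE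
    set F : Matrix (Fin 2) (Fin 2) k := !![0, 0; 1, 0] with hF
    have hEtr : Matrix.trace E = 0 := by rw [Matrix.trace_fin_two]; simp [hE]
    have hFtr : Matrix.trace F = 0 := by rw [Matrix.trace_fin_two]; simp [hF]
    set lE : k →ₗ[ZMod p] ZMod p := f ∘ₗ s56am_line p rb E hEtr with hlE
    set lF : k →ₗ[ZMod p] ZMod p := f ∘ₗ s56am_line p rb F hFtr with hlF
    by_cases hE0 : lE = 0
    · have hmem : E ∈ s56am_kerK p rb f := ⟨hEtr, fun a => by
        have := congrArg (fun φ : k →ₗ[ZMod p] ZMod p => φ a) hE0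
        exact this⟩
      rw [hbot, Submodule.mem_bot] at hmem
      have h01 := congrFun (congrFun hmem 0) 1
      simp [hE] at h01
    · -- `b ↦ lE (b * ·)` is injective, hence surjective
      set Ψ : k →ₗ[ZMod p] Module.Dual (ZMod p) k := (LinearMap.mul (ZMod p) k).compr₂ lE with hΨ
      have hΨ_apply : ∀ b a : k, Ψ b a = lE (b * a) := fun b a => rfl
      have hΨinj : Function.Injective Ψ := by
        rw [← LinearMap.ker_eq_bot, LinearMap.ker_eq_bot']
        intro b hb
        by_contra hb0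
        apply hE0
        refine LinearMap.ext fun a => ?_
        have h1 := congrArg (fun φ : Module.Dual (ZMod p) k => φ (b⁻¹ * a)) hb
        simp only [hΨ_apply, LinearMap.zero_apply] at h1
        rw [← mul_assoc, mul_inv_cancel₀ hb0, one_mul] at h1
        rw [h1]; rfl
      haveI : Module.Finite (ZMod p) k := Module.Finite.of_finite
      have hΨsurj : Function.Surjective Ψ :=
        (LinearMap.injective_iff_surjective_of_finrank_eq_finrank
          (Subspace.dual_finrank_eq (K := ZMod p) (V := k)).symm).mp hΨinj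
      obtain ⟨b, hb⟩ := hΨsurj lF
      have hxtr : Matrix.trace (F - b • E) = 0 := by
        rw [Matrix.trace_sub, Matrix.trace_smul, hEtr, hFtr, smul_zero, sub_zero]
      have hmem : F - b • E ∈ s56am_kerK p rb f := ⟨hxtr, fun a => by
        have h1 : s56am_line p rb (F - b • E) hxtr a
            = s56am_line p rb F hFtr a - s56am_line p rb E hEtr (b * a) := by
          apply s56t_val_injective p rb.toMonoidHom
          rw [s56t_val_sub, s56am_val_line, s56am_val_line, s56am_val_line, smul_sub, smul_smul,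
            mul_comm]
        rw [h1, map_sub]
        have h2 : lF a = lE (b * a) := by
          rw [← hb]; rfl
        have h3 : f (s56am_line p rb F hFtr a) = lF a := rfl
        have h4 : f (s56am_line p rb E hEtr (b * a)) = lE (b * a) := rfl
        rw [h3, h4, h2, sub_self]⟩
      rw [hbot, Submodule.mem_bot] at hmem
      have h10 := congrFun (congrFun hmem 1) 0
      simp [hE, hF] at h10
  · -- `W = ad⁰`: `f = 0`
    have hzero : ∀ y : (s56t_ad0 p rb.toMonoidHom).V, f y = 0 := by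
      intro y
      obtain ⟨hx, hfx⟩ := htop (s56t_val p rb.toMonoidHom y) (s56t_trace_val p rb.toMonoidHom y)
      have h1 := hfx 1
      have h2 : s56am_line p rb (s56t_val p rb.toMonoidHom y) hx 1 = y := by
        apply s56t_val_injective p rb.toMonoidHom
        rw [s56am_val_line, one_smul]
      rwa [h2] at h1
    exact LinearMap.ext hzero

/-! ### the same, from the frozen hypotheses on `ρbar ≃ rb` -/

/-- `ad⁰` is unramified wherever `rb` is. -/
theorem s56am_unrOut (S : Finset Nat.Primes)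
    (hur : ∀ q : Nat.Primes, q ∉ S → rb.toResidualGaloisRep.IsUnramifiedAt (q : ℕ)) :
    s56gw_UnrOut S (s56t_ad0 p rb.toMonoidHom) := by
  refine s56t_ad0_unrOut p rb.toMonoidHom S (fun q hq A hA g hg => ?_)
  have h1 : Matrix.toLin' (rb.toMonoidHom g) = 1 := hur q hq A hA g hg
  apply Matrix.toLin'.injective
  rw [h1, Matrix.toLin'_one]
  rfl

/-- `ad⁰` is smooth. -/
theorem s56am_smooth : s56gw_Smooth (s56t_ad0 p rb.toMonoidHom) :=
  s56t_ad0_smooth p rb.toMonoidHom rb.finiteLevel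

variable {ρbar : ResidualGaloisRep k}

theorem s56am_noInv_of_isEquiv (hequiv : ρbar.IsEquiv rb.toResidualGaloisRep) (h2 : (2 : k) ≠ 0)
    (habs : ρbar.IsAbsolutelyIrreducible) : s56gw_NoInv (s56t_ad0 p rb.toMonoidHom) :=
  s56am_noInv p rb h2 (s56am_habs_of_isEquiv hequiv habs)

theorem s56am_noInv_dual_of_isEquiv [Finite k] (hequiv : ρbar.IsEquiv rb.toResidualGaloisRep)
    (h2 : (2 : k) ≠ 0) (habs : ρbar.IsAbsolutelyIrreducible) (hTW : s56g_TWHyp ρbar) :
    s56gw_NoInv (s56gw_dual (s56t_ad0 p rb.toMonoidHom)) :=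
  s56am_noInv_dual p rb h2 (s56am_habs_of_isEquiv hequiv habs) (s56am_hTW_of_isEquiv hequiv hTW)

theorem s56am_unrOut_of_isEquiv (hequiv : ρbar.IsEquiv rb.toResidualGaloisRep)
    (S : Finset Nat.Primes) (hur : ∀ q : Nat.Primes, q ∉ S → ρbar.IsUnramifiedAt (q : ℕ)) :
    s56gw_UnrOut S (s56t_ad0 p rb.toMonoidHom) :=
  s56am_unrOut p rb S (fun q hq => s56am_unr_of_isEquiv hequiv (hur q hq))

end inv

end

end Fermat.Agent.S56
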